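import Fermat.Agent.EuclideanLenstra.Criterion

/-!
# The Euclidean minimum of a number field

`fieldMin z` is the least `|N(z - g)|` over the integers `g`, attained and rational; `realMin` is
the same on the mixed space, bounded by compactness of a fundamental domain.
-/

set_option autoImplicit false
set_option linter.style.haveILetI false

noncomputable section

namespace FA.EuclideanMinimum

open NumberField Module FA.LenstraEuclid

variable {K : Type*} [Field K] [NumberField K]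

/-- The infimum of `|N(z - g)|` over the integers `g`. -/
def fieldMin (z : K) : ℝ := ⨅ g : 𝓞 K, |((Algebra.norm ℚ (z - g) : ℚ) : ℝ)|

/-- The infimum of `N(x - g)` over the integers `g`, on the mixed space. -/
def realMin (x : mixedEmbedding.mixedSpace K) : ℝ :=
  ⨅ g : 𝓞 K, mixedEmbedding.norm (x - mixedEmbedding K (g : K))

variable (K) in
/-- The Euclidean minimum. -/
def euclideanMinimum : ℝ := ⨆ z : K, fieldMin z

theorem realMin_mixedEmbedding (z : K) : realMin (mixedEmbedding K z) = fieldMin z := by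
  refine congrArg iInf (funext fun g => ?_)
  rw [← map_sub, mixedEmbedding.norm_eq_norm, Rat.cast_abs]

theorem realMin_le (x : mixedEmbedding.mixedSpace K) (g : 𝓞 K) :
    realMin x ≤ mixedEmbedding.norm (x - mixedEmbedding K (g : K)) :=
  ciInf_le ⟨0, fun _ ⟨_, h⟩ => h ▸ mixedEmbedding.norm_nonneg _⟩ g

theorem le_realMin {x : mixedEmbedding.mixedSpace K} {t : ℝ}
    (h : ∀ g : 𝓞 K, t ≤ mixedEmbedding.norm (x - mixedEmbedding K (g : K))) : t ≤ realMin x :=
  le_ciInf h

theorem fieldMin_le (z : K) (g : 𝓞 K) : fieldMin z ≤ |((Algebra.norm ℚ (z - g) : ℚ) : ℝ)| :=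
  ciInf_le ⟨0, fun _ ⟨_, h⟩ => h ▸ abs_nonneg _⟩ g

theorem le_fieldMin {z : K} {t : ℝ}
    (h : ∀ g : 𝓞 K, t ≤ |((Algebra.norm ℚ (z - g) : ℚ) : ℝ)|) : t ≤ fieldMin z :=
  le_ciInf h

theorem exists_fieldMin_eq (z : K) :
    ∃ g : 𝓞 K, fieldMin z = |((Algebra.norm ℚ (z - g) : ℚ) : ℝ)| := by
  classical
  obtain ⟨a, b, hb, hz⟩ := IsFractionRing.div_surjective (A := 𝓞 K) z
  have hb0 : (b : K) ≠ 0 := fun e => nonZeroDivisors.ne_zero hb (RingOfIntegers.coe_injective e)
  have key : ∀ g : 𝓞 K, |((Algebra.norm ℚ (z - g) : ℚ) : ℝ)| =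
      ((Algebra.norm ℤ (a - b * g)).natAbs : ℝ) / |((Algebra.norm ℚ (b : K) : ℚ) : ℝ)| := by
    intro g
    have h1 : ((a - b * g : 𝓞 K) : K) = (b : K) * (z - (g : K)) := by
      rw [← hz]
      simp only [RingOfIntegers.coe_eq_algebraMap, map_sub, map_mul] at hb0 ⊢
      field_simp
    rw [Nat.cast_natAbs, Int.cast_abs, ← Rat.cast_intCast, Algebra.coe_norm_int, h1, map_mul,
      Rat.cast_mul, abs_mul, mul_div_cancel_left₀]
    exact abs_ne_zero.2 (Rat.cast_ne_zero.2 (Algebra.norm_ne_zero_iff.2 hb0))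
  have hex : ∃ k : ℕ, ∃ g : 𝓞 K, (Algebra.norm ℤ (a - b * g)).natAbs = k := ⟨_, 0, rfl⟩
  obtain ⟨g, hg⟩ := Nat.find_spec hex
  refine ⟨g, le_antisymm (fieldMin_le z g) (le_fieldMin fun g' => ?_)⟩
  rw [key, key, hg]
  exact div_le_div_of_nonneg_right (Nat.cast_le.2 (Nat.find_min' hex ⟨g', rfl⟩)) (abs_nonneg _)

theorem isNormEuclidean_iff : IsNormEuclideanField K ↔ ∀ z : K, fieldMin z < 1 := by
  refine ⟨fun h z => ?_, fun h z => ?_⟩
  · obtain ⟨g, hg⟩ := h z
    exact (fieldMin_le z g).trans_lt (by exact_mod_cast hg)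
  · obtain ⟨g, hg⟩ := exists_fieldMin_eq z
    have := hg ▸ h z
    exact ⟨g, by exact_mod_cast this⟩

variable (K) in
open scoped Classical in
theorem exists_near : ∃ R : ℝ, ∀ x : mixedEmbedding.mixedSpace K,
    ∃ g : 𝓞 K, ‖x - mixedEmbedding K (g : K)‖ ≤ R := by
  obtain ⟨b, hb⟩ : ∃ b, b = mixedEmbedding.latticeBasis K := ⟨_, rfl⟩
  refine ⟨∑ i, ‖b i‖, fun x => ?_⟩
  have hmem : (ZSpan.floor b x : mixedEmbedding.mixedSpace K) ∈
      Submodule.span ℤ (Set.range (mixedEmbedding.latticeBasis K)) := by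
    subst hb
    exact (ZSpan.floor _ x).2
  rw [mixedEmbedding.mem_span_latticeBasis] at hmem
  obtain ⟨g, hg⟩ := hmem
  refine ⟨g, ?_⟩
  rw [show mixedEmbedding K (g : K) = (ZSpan.floor b x : mixedEmbedding.mixedSpace K) from hg,
    ← ZSpan.fract_apply]
  exact ZSpan.norm_fract_le b x

variable (K) in
open scoped Classical in
theorem exists_realMin_le : ∃ B : ℝ, ∀ x : mixedEmbedding.mixedSpace K, realMin x ≤ B := by
  obtain ⟨R, hR⟩ := exists_near K
  obtain ⟨B, hB⟩ := (isCompact_closedBall (0 : mixedEmbedding.mixedSpace K) R).bddAbove_image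
    (mixedEmbedding.continuous_norm K).continuousOn
  refine ⟨B, fun x => ?_⟩
  obtain ⟨g, hg⟩ := hR x
  exact (realMin_le x g).trans (hB ⟨_, mem_closedBall_zero_iff.2 hg, rfl⟩)

theorem bddAbove_fieldMin : BddAbove (Set.range fun z : K => fieldMin z) := by
  obtain ⟨B, hB⟩ := exists_realMin_le K
  refine ⟨B, ?_⟩
  rintro _ ⟨z, rfl⟩
  exact (realMin_mixedEmbedding z).symm.trans_le (hB _)

theorem fieldMin_le_euclideanMinimum (z : K) : fieldMin z ≤ euclideanMinimum K :=
  le_ciSup bddAbove_fieldMin z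

theorem isNormEuclidean_of_lt_one (h : euclideanMinimum K < 1) : IsNormEuclideanField K :=
  isNormEuclidean_iff.2 fun z => (fieldMin_le_euclideanMinimum z).trans_lt h

theorem euclideanMinimum_le_one (h : IsNormEuclideanField K) : euclideanMinimum K ≤ 1 :=
  ciSup_le fun z => (isNormEuclidean_iff.1 h z).le

end FA.EuclideanMinimum
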