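import Fermat.Agent.EuclideanMinimum.Basic
import Fermat.Agent.UnitRankOneEuclidean.Main

/-!
# The theorem of Barnes and Swinnerton-Dyer

With two infinite places, a real point far from the integers yields elements of the field nearly as
far: a periodic element shadows a piece of its orbit under a unit, and the norm is uniformly
continuous on balanced representatives.
-/

set_option autoImplicit false
set_option linter.style.haveILetI false
set_option linter.unusedSectionVars false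

noncomputable section

namespace FA.EuclideanMinimum

open NumberField NumberField.InfinitePlace Module FA.UnitRankOneEuclidean FA.LenstraEuclid

variable {K : Type*} [Field K] [NumberField K] (P : TwoPlaces K)

/-- The two coordinates of the mixed space. -/
def proj : mixedEmbedding.mixedSpace K →ₗ[ℝ] ℂ × ℂ :=
  (TwoPlaces.coord P.w₁).prod (TwoPlaces.coord P.w₂)

theorem proj_mixedEmbedding (x : K) : proj P (mixedEmbedding K x) = P.emb x :=
  Prod.ext (TwoPlaces.coord_mixedEmbedding _ _) (TwoPlaces.coord_mixedEmbedding _ _)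

theorem coord_mul (w : InfinitePlace K) (x y : mixedEmbedding.mixedSpace K) :
    TwoPlaces.coord w (x * y) = TwoPlaces.coord w x * TwoPlaces.coord w y := by
  rw [TwoPlaces.coord]
  split_ifs with h <;> simp

theorem proj_mul (x y : mixedEmbedding.mixedSpace K) : proj P (x * y) = proj P x * proj P y :=
  Prod.ext (coord_mul _ x y) (coord_mul _ x y)

theorem norm_coord (w : InfinitePlace K) (x : mixedEmbedding.mixedSpace K) :
    ‖TwoPlaces.coord w x‖ = mixedEmbedding.normAtPlace w x := by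
  rw [TwoPlaces.coord]
  split_ifs with h
  · rw [mixedEmbedding.normAtPlace_apply_of_isReal h]
    simp
  · rw [mixedEmbedding.normAtPlace_apply_of_isComplex (not_isReal_iff_isComplex.1 h)]
    simp

/-- The norm in the two coordinates. -/
def pairNorm (Q : ℂ × ℂ) : ℝ := ‖Q.1‖ ^ mult P.w₁ * ‖Q.2‖ ^ mult P.w₂

theorem pairNorm_mul (Q R : ℂ × ℂ) : pairNorm P (Q * R) = pairNorm P Q * pairNorm P R := by
  simp only [pairNorm, Prod.fst_mul, Prod.snd_mul, norm_mul, mul_pow]
  ring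

theorem pairNorm_proj (x : mixedEmbedding.mixedSpace K) :
    pairNorm P (proj P x) = mixedEmbedding.norm x := by
  classical
  rw [mixedEmbedding.norm_apply, P.univ_eq, Finset.prod_pair P.ne, pairNorm, ← norm_coord,
    ← norm_coord]
  rfl

theorem pairNorm_emb (x : K) : pairNorm P (P.emb x) = |((Algebra.norm ℚ x : ℚ) : ℝ)| := by
  rw [← proj_mixedEmbedding, pairNorm_proj, mixedEmbedding.norm_eq_norm, Rat.cast_abs]

theorem pairNorm_emb_unit (u : (𝓞 K)ˣ) : pairNorm P (P.emb (u : K)) = 1 := by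
  rw [pairNorm_emb, ← Rat.cast_abs, NumberField.Units.norm, Rat.cast_one]

theorem continuous_pairNorm : Continuous (pairNorm P) := by
  unfold pairNorm
  fun_prop

open scoped Classical in
theorem orbitBounded_proj (ε : (𝓞 K)ˣ) (x : mixedEmbedding.mixedSpace K) :
    P.OrbitBounded ε (proj P x) := by
  obtain ⟨R, hR⟩ := exists_near K
  refine ⟨‖LinearMap.toContinuousLinearMap (proj P)‖ * R, fun n => ?_⟩
  obtain ⟨g, hg⟩ := hR (mixedEmbedding K ((ε : K) ^ n) * x)
  refine ⟨g, ?_⟩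
  have e : P.orbit ε (proj P x) n - P.emb (g : K) =
      LinearMap.toContinuousLinearMap (proj P)
        (mixedEmbedding K ((ε : K) ^ n) * x - mixedEmbedding K (g : K)) := by
    rw [LinearMap.coe_toContinuousLinearMap', map_sub, proj_mul, proj_mixedEmbedding,
      proj_mixedEmbedding, TwoPlaces.orbit]
  rw [e]
  exact (ContinuousLinearMap.le_opNorm _ _).trans
    (mul_le_mul_of_nonneg_left hg (norm_nonneg _))

theorem exists_field_point (P : TwoPlaces K) {x : mixedEmbedding.mixedSpace K} {μ lam : ℝ}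
    (hμ : μ < lam) (h : ∀ g : 𝓞 K, lam ≤ mixedEmbedding.norm (x - mixedEmbedding K (g : K))) :
    ∃ z : K, ∀ g : 𝓞 K, μ ≤ |((Algebra.norm ℚ (z - g) : ℚ) : ℝ)| := by
  rcases le_or_gt μ 0 with hμ0 | hμ0
  · exact ⟨0, fun g => hμ0.trans (abs_nonneg _)⟩
  obtain ⟨ε, hA, hB⟩ := P.exists_unit_large
  obtain ⟨A, hAd⟩ : ∃ A, A = P.w₁ (ε : K) := ⟨_, rfl⟩
  have hA0 : 0 < A := hAd ▸ one_pos.trans hA
  obtain ⟨C, hC⟩ : ∃ C : ℝ, C = max A (max 1 μ) + 1 := ⟨_, rfl⟩
  have hC1 : A + 1 ≤ C := hC ▸ by linarith [le_max_left A (max 1 μ)]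
  have hC2 : max 1 μ + 1 ≤ C := hC ▸ by linarith [le_max_right A (max 1 μ)]
  obtain ⟨δ, hδ, hcont⟩ := Metric.uniformContinuousOn_iff.1
    ((isCompact_closedBall (0 : ℂ × ℂ) C).uniformContinuousOn_of_continuous
      (continuous_pairNorm P).continuousOn) _ (sub_pos.2 hμ)
  obtain ⟨ρ, hρ⟩ : ∃ ρ, ρ = min (δ / 2) 1 := ⟨_, rfl⟩
  have hρ0 : 0 < ρ := hρ ▸ lt_min (half_pos hδ) one_pos
  have hρδ : ρ < δ := (hρ ▸ min_le_left _ _).trans_lt (half_lt_self hδ)
  have hρ1 : ρ ≤ 1 := hρ ▸ min_le_right _ _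
  obtain ⟨n, N, G, z, hN, hper, hclose⟩ :=
    P.exists_periodic ε hA hB (orbitBounded_proj P ε x) hρ0
  refine ⟨z, fun g => ?_⟩
  obtain ⟨w, hw⟩ : ∃ w, w = z - (g : K) := ⟨_, rfl⟩
  rw [← hw, ← pairNorm_emb P]
  -- translates of the orbit stay far from the integers
  have hfar : ∀ (m : ℕ) (g : 𝓞 K),
      lam ≤ pairNorm P (P.orbit ε (proj P x) m + P.emb (g : K)) := by
    intro m g
    obtain ⟨u, hu⟩ : ∃ u : (𝓞 K)ˣ, u = ε ^ m := ⟨_, rfl⟩
    have hue : (ε : K) ^ m = (u : K) := by simp [hu]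
    have e : P.orbit ε (proj P x) m + P.emb (g : K) = P.emb (u : K) *
        proj P (x - mixedEmbedding K ((-((u⁻¹ : (𝓞 K)ˣ) : 𝓞 K) * g : 𝓞 K) : K)) := by
      rw [map_sub, proj_mixedEmbedding, TwoPlaces.orbit, hue, mul_sub, sub_eq_add_neg,
        ← mul_neg, ← map_neg, ← map_mul]
      congr 2
      simp [RingOfIntegers.coe_eq_algebraMap]
    rw [e, pairNorm_mul, pairNorm_emb_unit, one_mul, pairNorm_proj]
    exact h _
  by_contra! hlt
  -- zero differences
  rcases eq_or_ne w 0 with h0 | h0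
  · obtain ⟨hd1, hd2⟩ := hclose 0 (Nat.zero_le _)
    rw [pow_zero, one_mul, add_zero] at hd1 hd2
    obtain ⟨X, hX⟩ : ∃ X, X = P.orbit ε (proj P x) n + P.emb ((-g : 𝓞 K) : K) := ⟨_, rfl⟩
    have hXn : ‖X - 0‖ ≤ ρ := by
      have e : X - 0 = -(P.emb z - P.orbit ε (proj P x) n) := by
        rw [sub_zero, hX, show ((-g : 𝓞 K) : K) = -(g : K) from rfl, map_neg,
          ← sub_eq_zero.1 (hw ▸ h0 : z - (g : K) = 0)]
        abel
      rw [e, norm_neg, Prod.norm_def]
      exact max_le hd1 hd2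
    rw [sub_zero] at hXn
    have hb : 0 ≤ C := by linarith
    have := hcont X (mem_closedBall_zero_iff.2 (by linarith)) 0 (Metric.mem_closedBall_self hb)
      (by rw [dist_zero_right]; linarith)
    rw [show pairNorm P (0 : ℂ × ℂ) = 0 by simp [pairNorm], dist_zero_right, Real.norm_eq_abs]
      at this
    linarith [le_abs_self (pairNorm P X), hX ▸ hfar n (-g)]
  have ha : 0 < P.w₁ w := InfinitePlace.pos_iff.2 h0
  obtain ⟨k, hk1, hk2⟩ := exists_mem_Ico_zpow (inv_pos.2 ha) (hAd ▸ hA : 1 < A)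
  obtain ⟨q, i, hi, hki⟩ : ∃ (q : ℤ) (i : ℕ), i ≤ N ∧ k + 1 = q * N + i := by
    refine ⟨(k + 1) / N, ((k + 1) % N).toNat, ?_, ?_⟩
    · have := Int.emod_lt_of_pos (k + 1) (show (0 : ℤ) < N by omega)
      omega
    · rw [Int.toNat_of_nonneg (Int.emod_nonneg _ (by omega))]
      exact (Int.mul_comm _ _ ▸ (Int.mul_ediv_add_emod (k + 1) N).symm)
  obtain ⟨u, hu⟩ : ∃ u : (𝓞 K)ˣ, u = ε ^ (k + 1) := ⟨_, rfl⟩
  have huA : P.w₁ (u : K) = A ^ (k + 1) := by
    rw [hu, Units.coe_zpow, map_zpow₀, hAd]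
  obtain ⟨W, hW⟩ : ∃ W, W = P.emb ((u : K) * w) := ⟨_, rfl⟩
  have hWN : pairNorm P W < μ := by
    rw [hW, map_mul, pairNorm_mul, pairNorm_emb_unit, one_mul]
    exact hlt
  have hW1 : 1 ≤ ‖W.1‖ ∧ ‖W.1‖ ≤ A := by
    rw [hW, P.norm_emb_fst, map_mul, huA, zpow_add_one₀ hA0.ne']
    rw [inv_eq_one_div, div_lt_iff₀ ha, zpow_add_one₀ hA0.ne'] at hk2
    rw [inv_eq_one_div, le_div_iff₀ ha] at hk1
    refine ⟨hk2.le, ?_⟩
    have := mul_le_mul_of_nonneg_left hk1 hA0.le
    linarith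
  have hW2 : ‖W.2‖ ≤ max 1 μ := by
    have h1 : ‖W.2‖ ^ mult P.w₂ ≤ μ := by
      refine le_trans
        (le_mul_of_one_le_left (by positivity) (one_le_pow₀ hW1.1 (n := mult P.w₁))) ?_
      exact hWN.le
    rcases le_total ‖W.2‖ 1 with hle | hle
    · exact hle.trans (le_max_left _ _)
    · exact ((le_self_pow₀ hle mult_ne_zero).trans h1).trans (le_max_right _ _)
  obtain ⟨h', hh⟩ : ∃ h' : 𝓞 K, (u : K) * w = (ε : K) ^ i * z + (h' : K) := by
    obtain ⟨η, hη⟩ : ∃ η : (𝓞 K)ˣ, η = ε ^ N := ⟨_, rfl⟩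
    have hη' : (η : K) * z = z + (G : K) := by
      rw [hη, ← hper]; simp
    obtain ⟨gq, hgq⟩ := TwoPlaces.exists_period_mul hη' q
    refine ⟨((ε ^ i : (𝓞 K)ˣ) : 𝓞 K) * gq - (u : 𝓞 K) * g, ?_⟩
    have e : u = ε ^ i * η ^ q := by
      rw [hu, hki, hη, ← zpow_natCast ε N, ← zpow_mul, ← zpow_natCast ε i, ← zpow_add,
        mul_comm q, add_comm]
    rw [hw, mul_sub,
      show (u : K) * z = (ε : K) ^ i * z + ((ε ^ i : (𝓞 K)ˣ) : K) * (gq : K) by
        rw [e, TwoPlaces.units_coe_mul, mul_assoc, hgq, mul_add]; simp]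
    simp only [RingOfIntegers.coe_eq_algebraMap, map_sub, map_mul]
    ring
  obtain ⟨hd1, hd2⟩ := hclose i hi
  obtain ⟨X, hX⟩ : ∃ X, X = P.orbit ε (proj P x) (n + i) + P.emb (h' : K) := ⟨_, rfl⟩
  have hXW : ‖X - W‖ ≤ ρ := by
    have e : X - W = -(P.emb ((ε : K) ^ i * z) - P.orbit ε (proj P x) (n + i)) := by
      rw [hX, hW, hh, map_add]
      abel
    rw [e, norm_neg, Prod.norm_def]
    exact max_le hd1 hd2
  have hWC : ‖W‖ ≤ C - 1 := by
    rw [Prod.norm_def]
    exact max_le (by linarith [hW1.2]) (by linarith)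
  have hXC : ‖X‖ ≤ C := by
    have := norm_le_norm_add_norm_sub' X W
    linarith
  have := hcont X (mem_closedBall_zero_iff.2 hXC) W
    (mem_closedBall_zero_iff.2 (by linarith)) (by rw [dist_eq_norm]; linarith)
  rw [Real.dist_eq, abs_lt] at this
  linarith [hX ▸ hfar (n + i) h']

theorem realMin_le_euclideanMinimum (h : Fintype.card (InfinitePlace K) = 2)
    (x : mixedEmbedding.mixedSpace K) : realMin x ≤ euclideanMinimum K := by
  refine le_of_forall_lt_imp_le_of_dense fun μ hμ => ?_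
  obtain ⟨z, hz⟩ := exists_field_point (exists_twoPlaces K h).some hμ (realMin_le x)
  exact (le_fieldMin hz).trans (fieldMin_le_euclideanMinimum z)

theorem euclideanMinimum_eq (h : Fintype.card (InfinitePlace K) = 2) :
    euclideanMinimum K = ⨆ x : mixedEmbedding.mixedSpace K, realMin x := by
  obtain ⟨B, hB⟩ := exists_realMin_le K
  refine le_antisymm (ciSup_le fun z => ?_) (ciSup_le (realMin_le_euclideanMinimum h))
  rw [← realMin_mixedEmbedding]
  exact le_ciSup ⟨B, fun _ ⟨y, hy⟩ => hy ▸ hB y⟩ _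

theorem le_euclideanMinimum (h : Fintype.card (InfinitePlace K) = 2) :
    Real.sqrt |(discr K : ℝ)| / 2 ^ 153 ≤ euclideanMinimum K := by
  obtain ⟨z, hz⟩ := (exists_twoPlaces K h).some.exists_inhomogeneous
  exact (le_fieldMin hz).trans (fieldMin_le_euclideanMinimum z)

theorem realMin_le_one (h : Fintype.card (InfinitePlace K) = 2) (hE : IsNormEuclideanField K)
    (x : mixedEmbedding.mixedSpace K) : realMin x ≤ 1 :=
  (realMin_le_euclideanMinimum h x).trans (euclideanMinimum_le_one hE)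

end FA.EuclideanMinimum
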